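import Mathlib

set_option autoImplicit false

/-!
# S41 [T-MOD]: the polynomial ring on a commuting family of operators

For a pairwise commuting family `T : ι → Module.End ℤ L` on an abelian group `L`, the ring
`MvPolynomial ι ℤ` acts on `L` with `X i` acting as `T i`.  Additive maps intertwining two such
families are linear for the resulting module structures.  Evaluation at integers `c i` modulo `p`
gives a ring homomorphism `θ : MvPolynomial ι ℤ →+* ZMod p` with `θ (X i) = c i`.

This is the glue needed to apply `Mid77.exists_new_vector` / `RibetAlgGlobal85` (stated over an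
arbitrary commutative ring `𝕋`) to the anemic Hecke operators on the lattices of parabolic
homomorphisms.
-/

namespace Fermat.Agent.S41.TMod49

open MvPolynomial

open scoped IsMulCommutative

variable {ι : Type*} {L L' L'' : Type*} [AddCommGroup L] [AddCommGroup L'] [AddCommGroup L'']

section OpHom

variable (T : ι → Module.End ℤ L) (hT : ∀ i j, Commute (T i) (T j))

/-- The commutative subalgebra generated by a commuting family. -/
abbrev opAlg : Subalgebra ℤ (Module.End ℤ L) := Algebra.adjoin ℤ (Set.range T)

include hT in
theorem isMulCommutative_opAlg : IsMulCommutative (opAlg T) :=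
  Algebra.isMulCommutative_adjoin ℤ (by
    rintro _ ⟨i, rfl⟩ _ ⟨j, rfl⟩
    exact hT i j)

/-- The ring homomorphism `MvPolynomial ι ℤ →+* End L` with `X i ↦ T i`. -/
noncomputable def opHom : MvPolynomial ι ℤ →+* Module.End ℤ L :=
  haveI := isMulCommutative_opAlg T hT
  ((opAlg T).val : opAlg T →+* Module.End ℤ L).comp
    ((MvPolynomial.aeval (R := ℤ) (S₁ := opAlg T)
      (fun i => (⟨T i, Algebra.subset_adjoin ⟨i, rfl⟩⟩ : opAlg T))) :
        MvPolynomial ι ℤ →+* opAlg T)

@[simp] theorem opHom_X (i : ι) : opHom T hT (X i) = T i := by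
  haveI := isMulCommutative_opAlg T hT
  simp [opHom]

@[simp] theorem opHom_C (n : ℤ) : opHom T hT (C n) = algebraMap ℤ (Module.End ℤ L) n := by
  haveI := isMulCommutative_opAlg T hT
  simp [opHom]

/-- The `MvPolynomial ι ℤ`-module structure on `L` with `X i` acting as `T i`.  Not an instance:
use `letI := opModule T hT`. -/
noncomputable abbrev opModule : Module (MvPolynomial ι ℤ) L :=
  Module.compHom L (opHom T hT)

theorem smul_def (s : MvPolynomial ι ℤ) (x : L) :
    letI := opModule T hT
    s • x = opHom T hT s x := rfl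

theorem X_smul (i : ι) (x : L) :
    letI := opModule T hT
    (X i : MvPolynomial ι ℤ) • x = T i x := by
  letI := opModule T hT
  rw [smul_def, opHom_X]

theorem C_smul (n : ℤ) (x : L) :
    letI := opModule T hT
    (C n : MvPolynomial ι ℤ) • x = n • x := by
  letI := opModule T hT
  rw [smul_def, opHom_C, Module.algebraMap_end_apply]

theorem natCast_smul (n : ℕ) (x : L) :
    letI := opModule T hT
    ((n : ℕ) : MvPolynomial ι ℤ) • x = (n : ℤ) • x := by
  letI := opModule T hT
  have : ((n : ℕ) : MvPolynomial ι ℤ) = C (n : ℤ) := by simp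
  rw [this, C_smul]

theorem X_sub_C_smul (i : ι) (n : ℤ) (x : L) :
    letI := opModule T hT
    (X i - C n : MvPolynomial ι ℤ) • x = T i x - n • x := by
  letI := opModule T hT
  rw [sub_smul, X_smul, C_smul]

end OpHom

section Linear

variable (T : ι → Module.End ℤ L) (hT : ∀ i j, Commute (T i) (T j))
  (T' : ι → Module.End ℤ L') (hT' : ∀ i j, Commute (T' i) (T' j))

/-- An additive map intertwining the two families is linear over `MvPolynomial ι ℤ`. -/
theorem map_smul_of_intertwine (f : L →+ L') (hf : ∀ i x, f (T i x) = T' i (f x))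
    (s : MvPolynomial ι ℤ) (x : L) :
    f (opHom T hT s x) = opHom T' hT' s (f x) := by
  induction s using MvPolynomial.induction_on generalizing x with
  | C n =>
    rw [opHom_C, opHom_C, Module.algebraMap_end_apply, Module.algebraMap_end_apply, map_zsmul]
  | add s t hs ht =>
    rw [map_add, map_add, LinearMap.add_apply, LinearMap.add_apply, map_add, hs, ht]
  | mul_X s i hs =>
    rw [map_mul, map_mul, opHom_X, opHom_X, Module.End.mul_apply, Module.End.mul_apply, hs, hf]

/-- The `MvPolynomial ι ℤ`-linear map attached to an intertwining additive map. -/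
noncomputable def linOfIntertwine (f : L →+ L') (hf : ∀ i x, f (T i x) = T' i (f x)) :
    letI := opModule T hT
    letI := opModule T' hT'
    L →ₗ[MvPolynomial ι ℤ] L' :=
  letI := opModule T hT
  letI := opModule T' hT'
  { toFun := f
    map_add' := map_add f
    map_smul' := fun s x => map_smul_of_intertwine T hT T' hT' f hf s x }

theorem linOfIntertwine_apply (f : L →+ L') (hf : ∀ i x, f (T i x) = T' i (f x)) (x : L) :
    linOfIntertwine T hT T' hT' f hf x = f x := rfl

end Linear

section Theta

variable (p : ℕ) (c : ι → ℤ)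

/-- Evaluation at the integers `c i`, modulo `p`. -/
noncomputable def theta : MvPolynomial ι ℤ →+* ZMod p :=
  MvPolynomial.eval₂Hom (Int.castRingHom (ZMod p)) (fun i => ((c i : ℤ) : ZMod p))

@[simp] theorem theta_X (i : ι) : theta p c (X i) = ((c i : ℤ) : ZMod p) := by
  simp [theta]

@[simp] theorem theta_C (n : ℤ) : theta p c (C n) = ((n : ℤ) : ZMod p) := by
  simp [theta]

theorem theta_natCast (n : ℕ) : theta p c ((n : ℕ) : MvPolynomial ι ℤ) = ((n : ℕ) : ZMod p) := by
  simp

theorem theta_X_sub_C (i : ι) (n : ℤ) :
    theta p c (X i - C n) = ((c i - n : ℤ) : ZMod p) := by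
  rw [map_sub, theta_X, theta_C, Int.cast_sub]

theorem theta_X_sub_C_self (i : ι) : theta p c (X i - C (c i)) = 0 := by
  rw [theta_X_sub_C, sub_self, Int.cast_zero]

theorem theta_X_sub_C_ne_zero {i : ι} {n : ℤ} (h : ¬ (p : ℤ) ∣ c i - n) :
    theta p c (X i - C n) ≠ 0 := by
  rw [theta_X_sub_C]
  intro h0
  exact h ((ZMod.intCast_zmod_eq_zero_iff_dvd _ p).mp h0)

end Theta

end Fermat.Agent.S41.TMod49
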