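import Fermat.Agent.S41.TMod49.Basic

set_option autoImplicit false

/-!
# S41 [T-MOD]: the kernel of `θ` and divisibility by `p` on a stable sublattice

`ker θ` is generated by `p` and the `X i - c i`.  Consequently, for a sublattice `K` stable under
the operators `T i` and a vector `x ∈ K` with `T i x - c i • x ∈ pK` for all `i`, every
`s ∈ ker θ` maps `x` into `pK`; and conversely (the easy direction).
-/

namespace Fermat.Agent.S41.TMod49

open MvPolynomial

variable {ι : Type*} {L : Type*} [AddCommGroup L]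

section Kernel

variable (p : ℕ) (c : ι → ℤ)

theorem theta_eq_cast_eval (s : MvPolynomial ι ℤ) :
    theta p c s = ((MvPolynomial.eval c s : ℤ) : ZMod p) := by
  have h : theta p c = (Int.castRingHom (ZMod p)).comp (MvPolynomial.eval c) := by
    apply MvPolynomial.ringHom_ext
    · intro n
      simp [theta]
    · intro i
      simp [theta]
  rw [h]
  rfl

/-- The ideal generated by the `X i - c i`. -/
noncomputable def idealX : Ideal (MvPolynomial ι ℤ) :=
  Ideal.span (Set.range fun i => (X i - C (c i) : MvPolynomial ι ℤ))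

theorem sub_C_eval_mem_idealX (s : MvPolynomial ι ℤ) :
    s - C (MvPolynomial.eval c s) ∈ idealX c := by
  induction s using MvPolynomial.induction_on with
  | C n =>
    rw [eval_C, sub_self]
    exact (idealX c).zero_mem
  | add s t hs ht =>
    have : s + t - C (eval c (s + t)) = (s - C (eval c s)) + (t - C (eval c t)) := by
      rw [map_add, map_add]
      ring
    rw [this]
    exact (idealX c).add_mem hs ht
  | mul_X s i hs =>
    have : s * X i - C (eval c (s * X i)) =
        (s - C (eval c s)) * X i + C (eval c s) * (X i - C (c i)) := by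
      rw [map_mul, eval_X, map_mul]
      ring
    rw [this]
    exact (idealX c).add_mem ((idealX c).mul_mem_right _ hs)
      ((idealX c).mul_mem_left _ (Ideal.subset_span ⟨i, rfl⟩))

/-- **`ker θ = (p, X i - c i)`**, in the form needed: every element of the kernel is a multiple
of `p` plus an element of the ideal generated by the `X i - c i`. -/
theorem exists_of_theta_eq_zero {s : MvPolynomial ι ℤ} (hs : theta p c s = 0) :
    ∃ (m : ℤ) (t : MvPolynomial ι ℤ), t ∈ idealX c ∧ s = C ((p : ℤ) * m) + t := by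
  rw [theta_eq_cast_eval, ZMod.intCast_zmod_eq_zero_iff_dvd] at hs
  obtain ⟨m, hm⟩ := hs
  refine ⟨m, s - C (eval c s), sub_C_eval_mem_idealX c s, ?_⟩
  rw [← hm]
  ring

theorem theta_eq_zero_of_mem_idealX {s : MvPolynomial ι ℤ} (hs : s ∈ idealX c) :
    theta p c s = 0 := by
  have : idealX c ≤ RingHom.ker (theta p c) := by
    apply Ideal.span_le.mpr
    rintro _ ⟨i, rfl⟩
    exact theta_X_sub_C_self p c i
  exact this hs

theorem theta_C_mul (m : ℤ) : theta p c (C ((p : ℤ) * m)) = 0 := by
  rw [theta_C]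
  push_cast
  rw [ZMod.natCast_self, zero_mul]

end Kernel

section Stable

variable (T : ι → Module.End ℤ L) (hT : ∀ i j, Commute (T i) (T j))

/-- A subgroup stable under the `T i` is stable under every polynomial in them. -/
theorem opHom_mem_of_stable (K : AddSubgroup L) (hK : ∀ i, ∀ x ∈ K, T i x ∈ K)
    (s : MvPolynomial ι ℤ) {x : L} (hx : x ∈ K) : opHom T hT s x ∈ K := by
  induction s using MvPolynomial.induction_on generalizing x with
  | C n =>
    rw [opHom_C, Module.algebraMap_end_apply]
    exact K.zsmul_mem hx n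
  | add s t hs ht =>
    rw [map_add, LinearMap.add_apply]
    exact K.add_mem (hs hx) (ht hx)
  | mul_X s i hs =>
    rw [map_mul, opHom_X, Module.End.mul_apply]
    exact hs (hK i x hx)

/-- If `T i x - c i • x ∈ pK` for all `i`, then every `s ∈ ker θ` maps `x` into `pK`. -/
theorem opHom_apply_mem_p_of_theta_eq_zero (p : ℕ) (c : ι → ℤ) (K : AddSubgroup L)
    (hK : ∀ i, ∀ x ∈ K, T i x ∈ K) {x : L} (hx : x ∈ K)
    (hcong : ∀ i, ∃ y ∈ K, T i x - (c i) • x = (p : ℤ) • y)
    {s : MvPolynomial ι ℤ} (hs : theta p c s = 0) :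
    ∃ y ∈ K, opHom T hT s x = (p : ℤ) • y := by
  obtain ⟨m, t, ht, rfl⟩ := exists_of_theta_eq_zero p c hs
  -- the set of polynomials mapping `x` into `pK` is an ideal containing the generators
  let J : Ideal (MvPolynomial ι ℤ) :=
    { carrier := {s | ∃ y ∈ K, opHom T hT s x = (p : ℤ) • y}
      add_mem' := by
        rintro s s' ⟨y, hy, hsy⟩ ⟨y', hy', hsy'⟩
        exact ⟨y + y', K.add_mem hy hy', by
          rw [map_add, LinearMap.add_apply, hsy, hsy', smul_add]⟩
      zero_mem' := ⟨0, K.zero_mem, by simp⟩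
      smul_mem' := by
        rintro a s ⟨y, hy, hsy⟩
        refine ⟨opHom T hT a y, opHom_mem_of_stable T hT K hK a hy, ?_⟩
        rw [smul_eq_mul, map_mul, Module.End.mul_apply, hsy, map_zsmul] }
  have hJ : idealX c ≤ J := by
    apply Ideal.span_le.mpr
    rintro _ ⟨i, rfl⟩
    obtain ⟨y, hy, hxy⟩ := hcong i
    refine ⟨y, hy, ?_⟩
    rw [map_sub, opHom_X, opHom_C, LinearMap.sub_apply, Module.algebraMap_end_apply]
    exact hxy
  obtain ⟨y, hy, hty⟩ := hJ ht
  refine ⟨m • x + y, K.add_mem (K.zsmul_mem hx m) hy, ?_⟩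
  rw [map_add, LinearMap.add_apply, hty, opHom_C, Module.algebraMap_end_apply, smul_add,
    mul_smul]

/-- The easy converse: if every `s ∈ ker θ` maps `x` into `pK`, then
`T i x - c i • x ∈ pK`. -/
theorem cong_of_forall_theta_eq_zero (p : ℕ) (c : ι → ℤ) (K : AddSubgroup L) {x : L}
    (h : ∀ s : MvPolynomial ι ℤ, theta p c s = 0 → ∃ y ∈ K, opHom T hT s x = (p : ℤ) • y)
    (i : ι) : ∃ y ∈ K, T i x - (c i) • x = (p : ℤ) • y := by
  obtain ⟨y, hy, hxy⟩ := h (X i - C (c i)) (theta_X_sub_C_self p c i)
  refine ⟨y, hy, ?_⟩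
  rw [map_sub, opHom_X, opHom_C, LinearMap.sub_apply, Module.algebraMap_end_apply] at hxy
  exact hxy

end Stable

end Fermat.Agent.S41.TMod49
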